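import Mathlib.NumberTheory.Modular
import Mathlib.NumberTheory.ModularForms.CongruenceSubgroups

/-!
# Invariance under `Γ₀(3)` from two generators
-/

set_option autoImplicit false

noncomputable section

namespace FA.CurveRed.Haupt

open CongruenceSubgroup UpperHalfPlane
open scoped MatrixGroups

/-- `[1, -1; 3, -2]`, of order three. -/
def ellThree : SL(2, ℤ) := ⟨!![1, -1; 3, -2], by simp [Matrix.det_fin_two_of]⟩

theorem ellThree_cube : ellThree * ellThree * ellThree = 1 := by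
  apply Subtype.ext
  rw [Matrix.SpecialLinearGroup.coe_mul, Matrix.SpecialLinearGroup.coe_mul]
  simp [ellThree, Matrix.one_fin_two]

/-- `[1, 0; 3m, 1]`. -/
def lowThree (m : ℤ) : SL(2, ℤ) := ⟨!![1, 0; 3 * m, 1], by simp [Matrix.det_fin_two_of]⟩

theorem ellThree_mul_T : ellThree * ModularGroup.T = lowThree 1 := by
  apply Subtype.ext
  rw [Matrix.SpecialLinearGroup.coe_mul, ModularGroup.coe_T]
  simp [ellThree, lowThree]

theorem lowThree_add (m n : ℤ) : lowThree m * lowThree n = lowThree (m + n) := by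
  apply Subtype.ext
  rw [Matrix.SpecialLinearGroup.coe_mul]
  simp [lowThree, mul_add]

theorem exists_small (x d : ℤ) (hd : d ≠ 0) : ∃ n : ℤ, 2 * (x + n * d).natAbs ≤ d.natAbs := by
  have h0 : 0 ≤ x % d := Int.emod_nonneg x hd
  have h1 : x % d < |d| := Int.emod_lt_abs x hd
  have he : x % d + d * (x / d) = x := Int.emod_add_mul_ediv x d
  have hsd : Int.sign d * d = |d| := Int.sign_mul_self_eq_abs d
  rcases le_or_gt (2 * (x % d)) |d| with h | h
  · refine ⟨-(x / d), ?_⟩
    have : x + -(x / d) * d = x % d := by linarith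
    rw [this]; rw [Int.abs_eq_natAbs] at *; omega
  · refine ⟨-(x / d) - Int.sign d, ?_⟩
    have : x + (-(x / d) - Int.sign d) * d = x % d - |d| := by linarith
    rw [this]; rw [Int.abs_eq_natAbs] at *; omega

/-- A function fixed by `T` and by the element of order three is fixed by `Γ₀(3)`. -/
theorem invariant_Gamma0_three {β : Type*} {s : ℍ → β}
    (hT : ∀ z, s (ModularGroup.T • z) = s z) (hE : ∀ z, s (ellThree • z) = s z) :
    ∀ γ ∈ Gamma0 3, ∀ z, s (γ • z) = s z := by
  let H : Subgroup SL(2, ℤ) :=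
    { carrier := {g | ∀ z, s (g • z) = s z}
      mul_mem' := fun {a b} ha hb z => by rw [mul_smul, ha, hb]
      one_mem' := fun z => by rw [one_smul]
      inv_mem' := fun {a} ha z => by
        rw [← ha (a⁻¹ • z), smul_inv_smul] }
  have hTn : ∀ n : ℤ, ModularGroup.T ^ n ∈ H := fun n => H.zpow_mem hT n
  have hlow : ∀ m : ℤ, lowThree m ∈ H := by
    have h1 : lowThree 1 ∈ H := ellThree_mul_T ▸ H.mul_mem hE hT
    intro m
    induction m using Int.induction_on with
    | zero =>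
      convert H.one_mem
      apply Subtype.ext
      simp [lowThree, Matrix.one_fin_two]
    | succ i hi => rw [← lowThree_add]; exact H.mul_mem hi h1
    | pred i hi =>
      have : lowThree (-(i : ℤ) - 1) = lowThree (-(i : ℤ)) * (lowThree 1)⁻¹ := by
        rw [eq_mul_inv_iff_mul_eq, lowThree_add]; ring_nf
      rw [this]
      exact H.mul_mem hi (H.inv_mem h1)
  suffices h : ∀ (n : ℕ) (γ : SL(2, ℤ)), γ ∈ Gamma0 3 → (γ 1 0).natAbs ≤ n → γ ∈ H from
    fun γ hγ => h _ γ hγ le_rfl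
  intro n
  induction n using Nat.strong_induction_on with
  | _ n ih =>
  intro γ hγ hn
  by_cases hc : γ 1 0 = 0
  · obtain ⟨k, hk⟩ := ModularGroup.exists_eq_T_zpow_of_c_eq_zero hc
    exact fun z => by rw [hk]; exact hTn k z
  obtain ⟨k, hk⟩ := exists_small (γ 0 0) (γ 1 0) hc
  set γ' := ModularGroup.T ^ k * γ with hγ'
  have e00 : γ' 0 0 = γ 0 0 + k * γ 1 0 := by
    simp [hγ', ModularGroup.coe_T_zpow, Matrix.mul_apply, Fin.sum_univ_two]
  have e10 : γ' 1 0 = γ 1 0 := by
    simp [hγ', ModularGroup.coe_T_zpow, Matrix.mul_apply, Fin.sum_univ_two]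
  rw [Gamma0_mem, ZMod.intCast_zmod_eq_zero_iff_dvd] at hγ
  have ha0 : γ' 0 0 ≠ 0 := by
    intro h0
    have hdet := γ'.det_coe
    rw [Matrix.det_fin_two, h0, e10, zero_mul, zero_sub] at hdet
    have : (3 : ℤ) ∣ 1 := hdet ▸ (Dvd.dvd.mul_left hγ _).neg_right
    omega
  obtain ⟨m, hm⟩ := exists_small (γ 1 0) (3 * γ' 0 0) (by omega)
  set γ'' := lowThree m * γ' with hγ''
  have e'' : γ'' 1 0 = γ 1 0 + m * (3 * γ' 0 0) := by
    rw [hγ'', Matrix.SpecialLinearGroup.coe_mul]
    simp [lowThree, Matrix.mul_apply, Fin.sum_univ_two, e10]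
    ring
  have hlt : (γ'' 1 0).natAbs < n := by
    rw [← e00] at hk
    rw [e'']
    omega
  have hmem : γ'' ∈ Gamma0 3 := by
    rw [Gamma0_mem, ZMod.intCast_zmod_eq_zero_iff_dvd, e'']
    exact dvd_add hγ (Dvd.dvd.mul_left (dvd_mul_right _ _) m)
  have h' := ih _ hlt γ'' hmem le_rfl
  have : γ = (ModularGroup.T ^ k)⁻¹ * ((lowThree m)⁻¹ * γ'') := by
    rw [hγ'', hγ', inv_mul_cancel_left, inv_mul_cancel_left]
  rw [this]
  exact H.mul_mem (H.inv_mem (hTn k)) (H.mul_mem (H.inv_mem (hlow m)) h')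

end FA.CurveRed.Haupt
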