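import Fermat.Agent.CurveRed.Haupt.Series
import Fermat.Agent.CurveRed.Haupt.Gamma3
import Fermat.Agent.ModField.Degree

/-!
# The Hauptmoduln of levels 2 and 3 as modular functions, and their relation with `j`
-/

set_option autoImplicit false
set_option linter.unusedSectionVars false
set_option linter.style.haveILetI false
set_option maxHeartbeats 1600000

noncomputable section

namespace FA.CurveRed.Haupt

open UpperHalfPlane hiding I
open Complex HahnSeries CongruenceSubgroup ModularCurve FA.ModField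
open scoped MatrixGroups Topology Manifold

/-! ### Vanishing -/

theorem OrdGE.prod {ι : Type*} (s : Finset ι) {L : ι → LaurentSeries ℂ} {n : ι → ℤ}
    (h : ∀ i ∈ s, OrdGE (n i) (L i)) : OrdGE (∑ i ∈ s, n i) (∏ i ∈ s, L i) := by
  classical
  induction s using Finset.induction with
  | empty => simpa using ordGE_one
  | @insert a s ha ih =>
    rw [Finset.sum_insert ha, Finset.prod_insert ha]
    exact (h a (Finset.mem_insert_self a s)).mul (ih fun i hi => h i (Finset.mem_insert_of_mem hi))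

/-- A bounded function vanishing at one cusp is zero. -/
theorem eq_zero_of_bounded {N : ℕ} [NeZero N] {f : ℍ → ℂ} (hf : f ∈ modFuns N)
    (hbdd : ∀ γ : SL(2, ℤ), ∃ L, OrdGE 0 L ∧ HasExp (qp N) (fun z => f (γ • z)) L)
    (hzero : ∃ L, OrdGE 1 L ∧ HasExp (qp N) f L) : f = 0 := by
  classical
  haveI := Fintype.ofFinite (FA.Dim.Cos N)
  set i₀ : FA.Dim.Cos N := QuotientGroup.mk 1
  have hexp : ∀ i, ∃ L, OrdGE (if i = i₀ then 1 else 0) L ∧ HasExp (qp N) (cosVal N f i) L := by
    intro i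
    by_cases hi : i = i₀
    · subst hi
      obtain ⟨L, hL, hL'⟩ := hzero
      refine ⟨L, by rw [if_pos rfl]; exact hL, hL'.congr (funext fun z => ?_)⟩
      rw [cosVal_mk hf, inv_one, one_smul]
    · obtain ⟨L, hL, hL'⟩ := hbdd (Quotient.out i)⁻¹
      exact ⟨L, by rw [if_neg hi]; exact hL, hL'⟩
  choose L hL hL' using hexp
  set g : ℍ → ℂ := ∏ i, cosVal N f i with hg
  have hge : HasExp (qp N) g (∏ i, L i) := hasExp_prod (qp_ne_zero N) _ fun i _ => hL' i
  have hinv : ∀ (γ : SL(2, ℤ)) z, g (γ • z) = g z := by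
    intro γ z
    simp only [hg, Finset.prod_apply, cosVal_smul hf]
    exact Fintype.prod_equiv (MulAction.toPerm γ⁻¹) _ _ fun i => rfl
  have hm : MDiff g := by
    have : g ∈ expFuns N := by
      rw [hg]
      exact prod_mem fun i _ => (⟨mdiff_comp_smul hf.1 _, hf.2.2.2 _⟩ : cosVal N f i ∈ expFuns N)
    exact this.1
  obtain ⟨L₁, hL₁⟩ := hasExp_descend (fun z => hinv _ z) hge
  have hL₁' : HasExp (qp N) g (qExpand ℂ N L₁) := by
    have h := hL₁.comp (U := qp N) id N 1 (fun z => by simp [qp_pow_self])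
    rwa [twist_one_apply] at h
  have heq := hge.unique (covers_qp N) hL₁'
  have hprod : OrdGE 1 (∏ i, L i) := by
    have h := OrdGE.prod Finset.univ fun i (_ : i ∈ Finset.univ) => hL i
    rwa [Finset.sum_ite_eq', if_pos (Finset.mem_univ _)] at h
  have hN : (0 : ℤ) < N := by exact_mod_cast Nat.pos_of_ne_zero (NeZero.ne N)
  have hL₁0 : OrdGE 0 L₁ := fun n hn => by
    rw [← qExpand_coeff_mul N L₁ n, ← heq]
    exact hprod _ (by nlinarith)
  obtain ⟨c, hc⟩ := eq_const_of_invariant hinv hm hL₁ hL₁0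
  have hC : ∏ i, L i = HahnSeries.C c := hge.unique (covers_qp N) (hc ▸ hasExp_C c)
  have hc0 : c = 0 := by
    have := hprod 0 (by norm_num)
    rwa [hC, HahnSeries.C_apply, coeff_single_same] at this
  rw [hc0, map_zero, Finset.prod_eq_zero_iff] at hC
  obtain ⟨i, -, hi⟩ := hC
  have h0 : cosVal N f i = 0 := (hL' i).fun_unique (hi ▸ hasExp_zero)
  funext z
  have := congrFun h0 (Quotient.out i • z)
  rwa [cosVal, inv_smul_smul] at this

/-! ### The general shape -/

variable {p : ℕ} [Fact p.Prime]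

/-- Behaviour of a Hauptmodul with pole at `∞` and zero at `0`. -/
structure IsHaupt (p : ℕ) (s : ℍ → ℂ) (A : PowerSeries ℤ) : Prop where
  mdiff : MDiff s
  inv : ∀ γ ∈ Gamma0 p, ∀ z, s (γ • z) = s z
  exp : HasExp (qp 1) s (sSer ℂ A)
  cusp : ∀ b : ℕ, ∃ M, OrdGE 1 M ∧
    HasExp (qp p) (fun z => s ((ModularGroup.S * ModularGroup.T ^ b) • z)) M

theorem IsHaupt.mem {s : ℍ → ℂ} {A : PowerSeries ℤ} (h : IsHaupt p s A) : s ∈ modFuns p :=
  mem_modFuns_of_reps h.mdiff h.inv h.exp fun b => let ⟨M, _, hM⟩ := h.cusp b; ⟨M, hM⟩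

/-- The relation with `j`. -/
theorem IsHaupt.relation {s : ℍ → ℂ} {A : PowerSeries ℤ} (h : IsHaupt p s A) (P : Polynomial ℤ)
    (hP : OrdGE 1 (jqModC ℂ * sSer ℂ A ^ p -
      (P.map (Int.castRingHom ℂ)).eval₂ HahnSeries.C (sSer ℂ A))) :
    ∀ (R : Type) [CommRing R], jqModC R * sSer R A ^ p =
      (P.map (Int.castRingHom R)).eval₂ HahnSeries.C (sSer R A) := by
  set PC := P.map (Int.castRingHom ℂ)
  set f : ℍ → ℂ := fun z => jfun z * s z ^ p - PC.eval (s z) with hf
  have hp0 : (0 : ℤ) ≤ p := Int.natCast_nonneg p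
  have hfmem : f ∈ modFuns p := by
    have h1 : (fun z => jfun z * s z ^ p) ∈ modFuns p := by
      have := mul_mem (scale_mem_modFuns p 1 (one_dvd p)) (pow_mem h.mem p)
      convert this using 1
      funext z
      simp only [Pi.mul_apply, Pi.pow_apply]
      congr 2
      ext
      simp [coe_scaleH]
    have h2 : (fun z => PC.eval (s z)) ∈ modFuns p := by
      generalize PC = Q
      induction Q using Polynomial.induction_on' with
      | add q r hq hr =>
        convert add_mem hq hr using 1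
        funext z
        simp
      | monomial n c =>
        convert mul_mem ((modFuns p).algebraMap_mem c) (pow_mem h.mem n) using 1
        funext z
        simp
    exact sub_mem h1 h2
  have hnn : ∀ M : LaurentSeries ℂ, OrdGE 0 M → OrdGE 0 (PC.eval₂ HahnSeries.C M) := by
    intro M hM
    rw [← mem_nonnegSubring, Polynomial.eval₂_eq_sum_range]
    exact sum_mem fun n _ => mul_mem (mem_nonnegSubring.2 (ordGE_C _))
      (pow_mem (mem_nonnegSubring.2 hM) n)
  set L₀ := jqModC ℂ * sSer ℂ A ^ p - PC.eval₂ HahnSeries.C (sSer ℂ A) with hL₀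
  have hexp : HasExp (qp 1) f L₀ :=
    ((hasExp_jfun.mul (qp_ne_zero 1) (h.exp.pow (qp_ne_zero 1) p)).sub
      (hasExp_poly (qp_ne_zero 1) h.exp PC)).congr (funext fun z => rfl)
  have hexpN : HasExp (qp p) f (qExpand ℂ p L₀) := by
    have h' := hexp.comp (U := qp p) id p 1 (fun z => by simp [qp_pow_self])
    rwa [twist_one_apply] at h'
  have hordN : OrdGE 1 (qExpand ℂ p L₀) := (OrdGE.qExpand p hP).mono (by
    have : 1 ≤ p := (Fact.out : p.Prime).one_lt.le
    omega)
  have hzero : f = 0 := by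
    refine eq_zero_of_bounded hfmem (fun γ => ?_) ⟨_, hordN, hexpN⟩
    rcases exists_rep p γ with hγ | ⟨b, -, hγ⟩
    · exact ⟨_, hordN.mono (by norm_num), hexpN.congr (funext fun z => (hfmem.2.1 γ hγ z).symm)⟩
    · obtain ⟨M, hM1, hM⟩ := h.cusp b
      refine ⟨qExpand ℂ p (jqModC ℂ) * M ^ p - PC.eval₂ HahnSeries.C M, ?_,
        (((hasExp_jfun_qp p).mul (qp_ne_zero p) (hM.pow (qp_ne_zero p) p)).sub
          (hasExp_poly (qp_ne_zero p) hM PC)).congr (funext fun z => ?_)⟩
      · refine (((OrdGE.qExpand p ordGE_jqModC).mul (hM1.pow p)).mono ?_).sub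
          (hnn M (hM1.mono (by norm_num)))
        ring_nf; rfl
      · have e : f (γ • z) = f ((ModularGroup.S * ModularGroup.T ^ b) • z) := by
          rw [← hfmem.2.1 _ hγ ((ModularGroup.S * ModularGroup.T ^ b) • z), smul_smul,
            inv_mul_cancel_right]
        rw [e]
        simp only [hf, Pi.sub_apply, Pi.mul_apply, Pi.pow_apply]
        rw [jfun_smul]
  have hC : L₀ = 0 := hexp.unique (covers_qp 1) (hzero ▸ hasExp_zero)
  have hev : ∀ {R S : Type} [CommRing R] [CommRing S] (φ : R →+* S),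
      coeffMap φ ((P.map (Int.castRingHom R)).eval₂ HahnSeries.C (sSer R A)) =
        (P.map (Int.castRingHom S)).eval₂ HahnSeries.C (sSer S A) := by
    intro R S _ _ φ
    rw [Polynomial.eval₂_map, Polynomial.hom_eval₂, coeffMap_sSer, Polynomial.eval₂_map]
    congr 1
    exact RingHom.ext_int _ _
  have hZ : jqModC ℤ * sSer ℤ A ^ p =
      (P.map (Int.castRingHom ℤ)).eval₂ HahnSeries.C (sSer ℤ A) := by
    refine coeffMap_injective' (φ := Int.castRingHom ℂ) Int.cast_injective ?_
    rw [hev, map_mul, map_pow, coeffMap_jqModC, coeffMap_sSer]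
    exact sub_eq_zero.1 hC
  intro R _
  have := congrArg (coeffMap (Int.castRingHom R)) hZ
  rwa [hev, map_mul, map_pow, coeffMap_jqModC, coeffMap_sSer] at this

/-! ### Level 2 -/

/-- `Δ(z) / Δ(2z)`. -/
def haupt2Fun (z : ℍ) : ℂ :=
  ModularForm.discriminant z * (ModularForm.discriminant (scaleH 2 z))⁻¹

theorem unitFun_ne_zero (p : ℕ) [NeZero p] (z : ℍ) : unitFun p z ≠ 0 :=
  mul_ne_zero (pow_ne_zero _ (by exact_mod_cast NeZero.ne p))
    (mul_ne_zero (ModularForm.discriminant_ne_zero _)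
      (inv_ne_zero (ModularForm.discriminant_ne_zero _)))

theorem discriminant_ratio (p : ℕ) [NeZero p] (z : ℍ) :
    ModularForm.discriminant z * (ModularForm.discriminant (scaleH p z))⁻¹ =
      (p : ℂ) ^ 12 * (unitFun p z)⁻¹ := by
  have : (p : ℂ) ^ 12 ≠ 0 := pow_ne_zero _ (by exact_mod_cast NeZero.ne p)
  have h1 := ModularForm.discriminant_ne_zero z
  have h2 := ModularForm.discriminant_ne_zero (scaleH p z)
  have hp : (p : ℂ) ≠ 0 := by exact_mod_cast NeZero.ne p
  rw [unitFun]
  field_simp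

theorem hasExp_discriminant_scale_inv (p : ℕ) [NeZero p] :
    HasExp (qp 1) (fun z => (ModularForm.discriminant (scaleH p z))⁻¹)
      (qExpand ℂ p (dinvq ℂ)) := by
  have h := hasExp_inv_discriminant.comp (U := qp 1) (scaleH p) p 1 (fun z => by
    rw [qp_scale, Units.val_one, one_mul])
  rwa [twist_one_apply] at h

theorem isHaupt_two : IsHaupt 2 haupt2Fun haupt2 := by
  haveI : Fact (Nat.Prime 2) := ⟨Nat.prime_two⟩
  refine ⟨CuspForm.discriminant.holo'.mul (mdiff_comp_scale mdiff_inv_discriminant 2),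
    fun γ hγ z => ?_, ?_, fun b => ?_⟩
  · show haupt2Fun (γ • z) = haupt2Fun z
    rw [haupt2Fun, haupt2Fun, discriminant_ratio, discriminant_ratio, unitFun_smul 2 hγ]
  · have h := hasExp_discriminant.mul (qp_ne_zero 1) (hasExp_discriminant_scale_inv 2)
    have e : deltaq ℂ * qExpand ℂ 2 (dinvq ℂ) = sSer ℂ haupt2 := by
      rw [deltaq, dinvq, map_mul, qExpand_single, qExpand_ofPowerSeries, mul_mul_mul_comm,
        single_mul_single, one_mul, sSer, haupt2, map_mul (PowerSeries.map _),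
        PowerSeries.map_expand, map_mul (ofPowerSeries ℤ ℂ)]
      norm_num
    rw [e] at h
    exact h
  · have h2 := hasExp_discriminant.comp (U := qp 2) id 2 1 (fun z => by simp [qp_pow_self])
    have h3 := hasExp_inv_discriminant.comp (U := qp 2) (divH 2 b) 1 _ (qp_divH 2 b)
    rw [twist_one_apply] at h2
    rw [qExpand_one_apply] at h3
    refine ⟨HahnSeries.C ((2 : ℂ) ^ 12) * (qExpand ℂ 2 (deltaq ℂ) * twist (zetaN 2 ^ b) (dinvq ℂ)),
      ?_, ?_⟩
    · refine ((ordGE_C _).mul ((OrdGE.qExpand 2 ordGE_deltaq).mul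
        (twist_ordGE.2 dinvq_coeff.1))).mono (by norm_num)
    · refine ((hasExp_C _).mul (qp_ne_zero 2) (h2.mul (qp_ne_zero 2) h3)).congr (funext fun z => ?_)
      rw [haupt2Fun, discriminant_ratio, unitFun_rep]
      simp only [Pi.mul_apply, Function.comp_apply, id, mul_inv, inv_inv, Nat.cast_ofNat]
      ring

/-! ### Level 3 -/

/-- `η¹²`. -/
def eta12 (z : ℍ) : ℂ := ModularForm.eta (z : ℂ) ^ 12

theorem eta12_sq (z : ℍ) : eta12 z ^ 2 = ModularForm.discriminant z := by
  rw [eta12, ← pow_mul]; rfl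

theorem eta12_ne_zero (z : ℍ) : eta12 z ≠ 0 :=
  pow_ne_zero _ (ModularForm.eta_ne_zero z.im_pos)

theorem eta12_eq (z : ℍ) :
    eta12 z = qp 2 z * (∏' n : ℕ, (1 - qp 1 z ^ (n + 1))) ^ 12 := by
  have hq : qp 1 z = Function.Periodic.qParam (1 : ℝ) (z : ℂ) := by simp [qp]
  rw [eta12, ModularForm.eta, mul_pow]
  congr 1
  · rw [qp_eq, Function.Periodic.qParam, ← Complex.exp_nat_mul]
    congr 1
    push_cast
    ring
  · simp only [ModularForm.eta_q, ← hq]

theorem mdiff_eta12 : MDiff eta12 := by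
  rw [UpperHalfPlane.mdifferentiable_iff]
  intro w hw
  have h1 : DifferentiableWithinAt ℂ (fun x => ModularForm.eta x ^ 12) {z : ℂ | 0 < z.im} w :=
    ((ModularForm.differentiableAt_eta_of_mem_upperHalfPlaneSet hw).pow 12).differentiableWithinAt
  exact h1.congr (fun x hx => by rw [Function.comp_apply, eta12, ofComplex_apply_of_im_pos hx])
    (by rw [Function.comp_apply, eta12, ofComplex_apply_of_im_pos hw])

/-- The power series of `∏ (1 - qⁿ)¹²`. -/
def eta12Ser : LaurentSeries ℂ :=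
  ofPowerSeries ℤ ℂ ((etaProd ^ 12).map (Int.castRingHom ℂ))

theorem hasExp_eta12 :
    HasExp (qp 1) (fun z => (∏' n : ℕ, (1 - qp 1 z ^ (n + 1))) ^ 12) eta12Ser := by
  rw [eta12Ser, map_pow (PowerSeries.map _), map_pow (ofPowerSeries ℤ ℂ)]
  exact hasExp_etaProd.pow (qp_ne_zero 1) 12

/-- `η(z)¹² / η(3z)¹²`. -/
def haupt3Fun (z : ℍ) : ℂ :=
  eta12 z * eta12 (scaleH 3 z) * (ModularForm.discriminant (scaleH 3 z))⁻¹

theorem haupt3Fun_sq (z : ℍ) : haupt3Fun z ^ 2 = (3 : ℂ) ^ 12 * (unitFun 3 z)⁻¹ := by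
  have h := discriminant_ratio 3 z
  rw [Nat.cast_ofNat] at h
  rw [haupt3Fun, mul_pow, mul_pow, eta12_sq, eta12_sq, ← h]
  have h2 := ModularForm.discriminant_ne_zero (scaleH 3 z)
  field_simp

theorem mdiff_haupt3Fun : MDiff haupt3Fun :=
  (mdiff_eta12.mul (mdiff_comp_scale mdiff_eta12 3)).mul
    (mdiff_comp_scale mdiff_inv_discriminant 3)

theorem eq_or_eq_neg_of_sq {f g : ℍ → ℂ} (hf : Continuous f) (hg : Continuous g)
    (hg0 : ∀ z, g z ≠ 0) (h : ∀ z, f z ^ 2 = g z ^ 2) : f = g ∨ f = -g := by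
  rcases isPreconnected_univ.eq_or_eq_neg_of_sq_eq hf.continuousOn hg.continuousOn
    (fun z _ => h z) (fun {z} _ => hg0 z) with h' | h'
  · exact Or.inl (funext fun z => h' (Set.mem_univ z))
  · exact Or.inr (funext fun z => h' (Set.mem_univ z))

theorem haupt3Fun_ne_zero (z : ℍ) : haupt3Fun z ≠ 0 :=
  mul_ne_zero (mul_ne_zero (eta12_ne_zero _) (eta12_ne_zero _))
    (inv_ne_zero (ModularForm.discriminant_ne_zero _))

theorem isHaupt_three : IsHaupt 3 haupt3Fun haupt3 := by
  haveI : Fact (Nat.Prime 3) := ⟨Nat.prime_three⟩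
  have hqq : ∀ z : ℍ, qp 2 z * qp 2 (scaleH 3 z) = qp 1 z ^ (2 : ℤ) := by
    intro z
    rw [qp_eq, qp_eq, qp_eq, ← Complex.exp_add, ← Complex.exp_int_mul, coe_scaleH]
    congr 1
    push_cast
    ring
  have hexp : HasExp (qp 1) haupt3Fun (sSer ℂ haupt3) := by
    have h12 := hasExp_eta12.comp (U := qp 1) (scaleH 3) 3 1 (fun z => by
      rw [qp_scale, Units.val_one, one_mul])
    rw [twist_one_apply] at h12
    have h := (((hasExp_single (T := qp 1) 2 1).mul (qp_ne_zero 1)
      (hasExp_eta12.mul (qp_ne_zero 1) h12)).mul (qp_ne_zero 1) (hasExp_discriminant_scale_inv 3))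
    have e : single (2 : ℤ) (1 : ℂ) * (eta12Ser * qExpand ℂ 3 eta12Ser) * qExpand ℂ 3 (dinvq ℂ) =
        sSer ℂ haupt3 := by
      rw [dinvq, map_mul, qExpand_single, eta12Ser, qExpand_ofPowerSeries, qExpand_ofPowerSeries,
        mul_mul_mul_comm, single_mul_single, one_mul, sSer, haupt3, map_mul (PowerSeries.map _),
        map_mul (PowerSeries.map _), PowerSeries.map_expand, PowerSeries.map_expand,
        map_mul (ofPowerSeries ℤ ℂ), map_mul (ofPowerSeries ℤ ℂ), mul_assoc]
      norm_num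
    rw [e] at h
    refine h.congr (funext fun z => ?_)
    simp only [Pi.mul_apply, Function.comp_apply, one_mul, haupt3Fun, eta12_eq, ← hqq z]
    ring
  have hsq : ∀ γ ∈ Gamma0 3, ∀ z, haupt3Fun (γ • z) ^ 2 = haupt3Fun z ^ 2 := fun γ hγ z => by
    rw [haupt3Fun_sq, haupt3Fun_sq, unitFun_smul 3 hγ]
  have hcont : Continuous haupt3Fun := mdiff_haupt3Fun.continuous
  refine ⟨mdiff_haupt3Fun, invariant_Gamma0_three (fun z => ?_) (fun z => ?_), hexp, fun b => ?_⟩
  · refine (hexp (ModularGroup.T • z)).unique ?_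
    have h1 : qp 1 (ModularGroup.T • z) = qp 1 z := by
      rw [qp_T_smul, show zetaN 1 = 1 from Units.ext (IsPrimitiveRoot.one_right_iff.1 (zetaN_prim 1))]
      simp
    simpa only [h1] using hexp z
  · have hE : ellThree ∈ Gamma0 3 := by
      rw [Gamma0_mem]
      simp [ellThree]
      rfl
    rcases eq_or_eq_neg_of_sq (f := fun z => haupt3Fun (ellThree • z))
      (mdiff_comp_smul mdiff_haupt3Fun _).continuous hcont haupt3Fun_ne_zero (hsq _ hE) with h | h
    · exact congrFun h z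
    · exfalso
      have h3 := fun w => congrFun h w
      have e1 : haupt3Fun ((ellThree * ellThree * ellThree) • z) = -haupt3Fun z := by
        rw [mul_smul, mul_smul, h3, Pi.neg_apply, h3, Pi.neg_apply, h3, Pi.neg_apply, neg_neg]
      rw [ellThree_cube, one_smul] at e1
      exact haupt3Fun_ne_zero z (by linear_combination (1 / 2 : ℂ) * e1)
  · set G : ℍ → ℂ := fun z => (3 : ℂ) ^ 6 * (eta12 z * eta12 (divH 3 b z) *
      (ModularForm.discriminant (divH 3 b z))⁻¹) with hG
    have hGexp : ∃ M, OrdGE 1 M ∧ HasExp (qp 3) G M := by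
      have h1 := hasExp_eta12.comp (U := qp 3) id 3 1 (fun z => by simp [qp_pow_self])
      have h2 := hasExp_eta12.comp (U := qp 3) (divH 3 b) 1 _ (qp_divH 3 b)
      have h3 := hasExp_inv_discriminant.comp (U := qp 3) (divH 3 b) 1 _ (qp_divH 3 b)
      rw [twist_one_apply] at h1
      rw [qExpand_one_apply] at h2 h3
      have hC : ∀ z : ℍ, qp 2 z * qp 2 (divH 3 b z) =
          cexp (Real.pi * Complex.I * b / 3) * qp 3 z ^ (2 : ℤ) := by
        intro z
        rw [qp_eq, qp_eq, qp_eq, ← Complex.exp_add, ← Complex.exp_int_mul, ← Complex.exp_add,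
          coe_divH]
        congr 1
        push_cast
        ring
      refine ⟨_, ?_, ((hasExp_C ((3 : ℂ) ^ 6)).mul (qp_ne_zero 3)
        ((((hasExp_single (T := qp 3) 2 (cexp (Real.pi * Complex.I * b / 3))).mul (qp_ne_zero 3)
          h1).mul (qp_ne_zero 3) h2).mul (qp_ne_zero 3) h3)).congr (funext fun z => ?_)⟩
      · exact ((ordGE_C _).mul ((((ordGE_single _ _).mul
          (OrdGE.qExpand 3 (ordGE_ofPowerSeries _))).mul
          (twist_ordGE.2 (ordGE_ofPowerSeries _))).mul (twist_ordGE.2 dinvq_coeff.1))).mono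
          (by norm_num)
      · simp only [Pi.mul_apply, Function.comp_apply, id, hG, eta12_eq, ← hC z]
        ring
    have hG0 : ∀ z, G z ≠ 0 := fun z => mul_ne_zero (by norm_num)
      (mul_ne_zero (mul_ne_zero (eta12_ne_zero _) (eta12_ne_zero _))
        (inv_ne_zero (ModularForm.discriminant_ne_zero _)))
    have hdiv : Continuous (divH 3 b) := by
      rw [UpperHalfPlane.isOpenEmbedding_coe.isInducing.continuous_iff]
      simp only [Function.comp_def, coe_divH]
      fun_prop
    have hGc : Continuous G := continuous_const.mul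
      ((mdiff_eta12.continuous.mul (mdiff_eta12.continuous.comp hdiv)).mul
        (mdiff_inv_discriminant.continuous.comp hdiv))
    have hsqG : ∀ z, haupt3Fun ((ModularGroup.S * ModularGroup.T ^ b) • z) ^ 2 = G z ^ 2 := by
      intro z
      have h2 := ModularForm.discriminant_ne_zero (divH 3 b z)
      rw [haupt3Fun_sq, unitFun_rep, hG]
      simp only [mul_pow, eta12_sq, mul_inv, inv_inv]
      field_simp
    obtain ⟨M, hM1, hM⟩ := hGexp
    rcases eq_or_eq_neg_of_sq (f := fun z => haupt3Fun ((ModularGroup.S * ModularGroup.T ^ b) • z))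
      (mdiff_comp_smul mdiff_haupt3Fun _).continuous hGc hG0 hsqG with h | h
    · exact ⟨M, hM1, hM.congr h.symm⟩
    · exact ⟨-M, hM1.neg, hM.neg.congr h.symm⟩

end FA.CurveRed.Haupt
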