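import Fermat.Agent.CurveRed.Haupt.Coeff
import Fermat.Agent.ModField.Igusa.LevelP

/-!
# The series of the Hauptmoduln of levels 2 and 3
-/

set_option autoImplicit false
set_option linter.unusedSectionVars false

noncomputable section

namespace FA.CurveRed.Haupt

open HahnSeries ModularCurve FA.ModField

variable {R S : Type*} [CommRing R] [CommRing S]

variable (R) in
/-- A series over `ℤ` of order `-1`. -/
def sSer (A : PowerSeries ℤ) : LaurentSeries R :=
  single (-1 : ℤ) 1 * ofPowerSeries ℤ R (A.map (Int.castRingHom R))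

theorem coeffMap_sSer (φ : R →+* S) (A : PowerSeries ℤ) :
    coeffMap φ (sSer R A) = sSer S A := by
  rw [sSer, sSer, map_mul, coeffMap_single, map_one, coeffMap_ofPowerSeries,
    ← RingHom.comp_apply (PowerSeries.map φ) (PowerSeries.map (Int.castRingHom R)),
    ← PowerSeries.map_comp, RingHom.ext_int (φ.comp (Int.castRingHom R)) (Int.castRingHom S)]

theorem sSer_coeff_neg_one {A : PowerSeries ℤ} (hA : PowerSeries.constantCoeff A = 1) :
    (sSer R A).coeff (-1) = 1 := by
  rw [sSer, coeff_single_mul, one_mul, sub_self, show (0 : ℤ) = ((0 : ℕ) : ℤ) from rfl,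
    ofPowerSeries_apply_coeff, PowerSeries.coeff_map, PowerSeries.coeff_zero_eq_constantCoeff,
    hA, map_one]

theorem qExpand_ofPowerSeries (p : ℕ) [NeZero p] (f : PowerSeries R) :
    qExpand R p (ofPowerSeries ℤ R f) =
      ofPowerSeries ℤ R (PowerSeries.expand p (NeZero.ne p) f) := by
  ext k
  rcases le_or_gt 0 k with hk | hk
  · lift k to ℕ using hk
    rw [ofPowerSeries_apply_coeff]
    by_cases hd : p ∣ k
    · obtain ⟨m, rfl⟩ := hd
      rw [PowerSeries.coeff_expand_mul, Nat.cast_mul, qExpand_coeff_mul, ofPowerSeries_apply_coeff]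
    · rw [PowerSeries.coeff_expand_of_not_dvd _ _ _ hd,
        qExpand_coeff_of_not_dvd _ _ (by exact_mod_cast hd)]
  · rw [ofPowerSeries_coeff_of_neg _ hk]
    by_cases hd : (p : ℤ) ∣ k
    · obtain ⟨m, rfl⟩ := hd
      rw [qExpand_coeff_mul, ofPowerSeries_coeff_of_neg _ (by
        have : (0 : ℤ) ≤ p := Int.natCast_nonneg p
        nlinarith)]
    · exact qExpand_coeff_of_not_dvd _ _ hd

theorem OrdGE.qExpand {n : ℤ} {f : LaurentSeries R} (p : ℕ) [NeZero p] (hf : OrdGE n f) :
    OrdGE ((p : ℤ) * n) (ModularCurve.qExpand R p f) := by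
  intro i hi
  by_cases hd : (p : ℤ) ∣ i
  · obtain ⟨m, rfl⟩ := hd
    rw [qExpand_coeff_mul]
    exact hf m (Int.lt_of_mul_lt_mul_left hi (Int.natCast_nonneg p))
  · exact qExpand_coeff_of_not_dvd _ _ hd

theorem ordGE_single (n : ℤ) (r : R) : OrdGE n (single n r : LaurentSeries R) := fun _ hi =>
  coeff_single_of_ne hi.ne

theorem ordGE_ofPowerSeries (f : PowerSeries R) : OrdGE 0 (ofPowerSeries ℤ R f) := fun _ hi =>
  ofPowerSeries_coeff_of_neg _ hi

theorem ordGE_deltaq : OrdGE 1 (deltaq R) := by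
  simpa [deltaq] using (ordGE_single (R := R) 1 1).mul (ordGE_ofPowerSeries _)

theorem sSer_add_C (A : PowerSeries ℤ) (c : ℤ) :
    sSer R A + HahnSeries.C (c : R) = sSer R (A + PowerSeries.C c * PowerSeries.X) := by
  rw [sSer, sSer, map_add, map_mul, PowerSeries.map_C, PowerSeries.map_X, map_add, map_mul,
    HahnSeries.ofPowerSeries_C, HahnSeries.ofPowerSeries_X, mul_add]
  congr 1
  rw [mul_left_comm, single_mul_single]
  simp

theorem ordGE_of_coeff {f : PowerSeries ℤ} (h : ∀ i < 5, PowerSeries.coeff i f = 0) :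
    OrdGE 5 (ofPowerSeries ℤ R (f.map (Int.castRingHom R))) := by
  intro i hi
  rcases le_or_gt 0 i with hk | hk
  · lift i to ℕ using hk
    rw [ofPowerSeries_apply_coeff, PowerSeries.coeff_map, h i (by omega), map_zero]
  · exact ofPowerSeries_coeff_of_neg _ hk

theorem jqModC_mul_sSer_pow (A : PowerSeries ℤ) (p : ℕ) :
    jqModC R * sSer R A ^ p = single (-((p : ℤ) + 1)) 1 *
      ofPowerSeries ℤ R ((jNum * A ^ p).map (Int.castRingHom R)) := by
  rw [jqModC, sSer, mul_pow, single_pow, mul_mul_mul_comm, single_mul_single, one_pow, mul_one,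
    map_mul (PowerSeries.map (Int.castRingHom R)), map_pow (PowerSeries.map (Int.castRingHom R)),
    map_mul (ofPowerSeries ℤ R), map_pow (ofPowerSeries ℤ R),
    show (-1 : ℤ) + p • (-1 : ℤ) = -((p : ℤ) + 1) by simp]

theorem ordGE_identity_two : OrdGE 1 (jqModC R * sSer R haupt2 ^ 2 -
    (sSer R haupt2 + HahnSeries.C ((256 : ℤ) : R)) ^ 3) := by
  have h := (ordGE_single (R := R) (-3) 1).mul
    (ordGE_of_coeff (R := R) coeff_identity_two)
  have he : single (-3 : ℤ) (1 : R) *
      ofPowerSeries ℤ R ((jNum * haupt2 ^ 2 -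
        (haupt2 + PowerSeries.C 256 * PowerSeries.X) ^ 3).map (Int.castRingHom R)) =
      jqModC R * sSer R haupt2 ^ 2 - (sSer R haupt2 + HahnSeries.C ((256 : ℤ) : R)) ^ 3 := by
    rw [jqModC_mul_sSer_pow, sSer_add_C, sSer, mul_pow, single_pow, one_pow, map_sub, map_sub,
      mul_sub, map_pow (PowerSeries.map _), map_pow (ofPowerSeries ℤ R)]
    norm_num
  rw [he] at h
  exact h.mono (by norm_num)

theorem ordGE_identity_three : OrdGE 1 (jqModC R * sSer R haupt3 ^ 3 -
    (sSer R haupt3 + HahnSeries.C ((27 : ℤ) : R)) *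
      (sSer R haupt3 + HahnSeries.C ((243 : ℤ) : R)) ^ 3) := by
  have h := (ordGE_single (R := R) (-4) 1).mul
    (ordGE_of_coeff (R := R) coeff_identity_three)
  have he : single (-4 : ℤ) (1 : R) *
      ofPowerSeries ℤ R ((jNum * haupt3 ^ 3 - (haupt3 + PowerSeries.C 27 * PowerSeries.X) *
        (haupt3 + PowerSeries.C 243 * PowerSeries.X) ^ 3).map (Int.castRingHom R)) =
      jqModC R * sSer R haupt3 ^ 3 - (sSer R haupt3 + HahnSeries.C ((27 : ℤ) : R)) *
        (sSer R haupt3 + HahnSeries.C ((243 : ℤ) : R)) ^ 3 := by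
    rw [jqModC_mul_sSer_pow, sSer_add_C, sSer_add_C, sSer, sSer, mul_pow, single_pow, one_pow,
      mul_mul_mul_comm, single_mul_single, map_sub, map_sub, mul_sub,
      map_mul (PowerSeries.map _) (_ + _), map_mul (ofPowerSeries ℤ R), map_pow (PowerSeries.map _)
        (_ + _), map_pow (ofPowerSeries ℤ R)]
    norm_num
  rw [he] at h
  exact h.mono (by norm_num)

theorem constantCoeff_haupt2 : PowerSeries.constantCoeff haupt2 = 1 := by
  rw [← PowerSeries.coeff_zero_eq_constantCoeff, five_haupt2 0 (by norm_num)]; rfl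

theorem constantCoeff_haupt3 : PowerSeries.constantCoeff haupt3 = 1 := by
  rw [← PowerSeries.coeff_zero_eq_constantCoeff, five_haupt3 0 (by norm_num)]; rfl

end FA.CurveRed.Haupt
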