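import Fermat.Prelude.Def_ModularCurve_X0
import Mathlib.RingTheory.PowerSeries.Expand

/-!
# The first coefficients of `j` and of the Hauptmoduln of levels 2 and 3
-/

set_option autoImplicit false
set_option linter.unusedSectionVars false

noncomputable section

namespace FA.CurveRed.Haupt

open PowerSeries ModularCurve
open scoped PowerSeries.WithPiTopology

/-- `f` has the first five coefficients `l`. -/
def Five (f : PowerSeries ℤ) (l : List ℤ) : Prop := ∀ i < 5, coeff i f = l.getD i 0

/-- Truncated product. -/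
def conv (a b : List ℤ) : List ℤ :=
  (List.range 5).map fun i => ((List.range (i + 1)).map fun j => a.getD j 0 * b.getD (i - j) 0).sum

/-- Truncated sum. -/
def plus (a b : List ℤ) : List ℤ := (List.range 5).map fun i => a.getD i 0 + b.getD i 0

theorem getD_five (g : ℕ → ℤ) {i : ℕ} (hi : i < 5) :
    ((List.range 5).map g).getD i 0 = g i := by
  rw [List.getD_eq_getElem _ _ (by simpa using hi), List.getElem_map, List.getElem_range]

theorem Five.mul {f g : PowerSeries ℤ} {a b c : List ℤ} (hf : Five f a) (hg : Five g b)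
    (hc : conv a b = c) : Five (f * g) c := by
  intro i hi
  subst hc
  rw [coeff_mul, Finset.Nat.sum_antidiagonal_eq_sum_range_succ_mk]
  rw [conv, getD_five _ hi,
    Finset.sum_congr rfl fun j hj => by
      rw [hf j (by have := Finset.mem_range.1 hj; omega), hg (i - j) (by omega)]]
  rfl

theorem Five.add {f g : PowerSeries ℤ} {a b c : List ℤ} (hf : Five f a) (hg : Five g b)
    (hc : plus a b = c) : Five (f + g) c := by
  intro i hi
  subst hc
  rw [map_add, hf i hi, hg i hi, plus, getD_five _ hi]

theorem five_one : Five 1 [1, 0, 0, 0, 0] := by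
  intro i hi
  interval_cases i <;> simp

theorem five_mk (l : List ℤ) : Five (PowerSeries.mk fun i => l.getD i 0) l := fun i _ =>
  coeff_mk i _

theorem five_mul_X (c : ℤ) : Five ((C c : PowerSeries ℤ) * X) [0, c, 0, 0, 0] := by
  intro i hi
  rw [coeff_C_mul, coeff_X]
  interval_cases i <;> simp

theorem five_inv {f g : PowerSeries ℤ} {a b : List ℤ} (hfg : f * g = 1) (hf : Five f a)
    (hab : conv a b = [1, 0, 0, 0, 0]) : Five g b := by
  have h1 := (hf.mul (five_mk b) hab)
  intro i hi
  have h2 : coeff i (g * (f * PowerSeries.mk fun i => b.getD i 0)) = coeff i g := by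
    rw [coeff_mul, Finset.sum_eq_single (i, 0)]
    · rw [h1 0 (by omega)]; simp
    · intro x hx hne
      have hx' := Finset.HasAntidiagonal.mem_antidiagonal.1 hx
      rw [h1 x.2 (by omega)]
      have h0 : x.2 ≠ 0 := fun h0 => hne (Prod.ext (by omega) h0)
      have hlt : x.2 < 5 := by omega
      interval_cases h : x.2 <;> simp at h0 ⊢
    · intro h; simp at h
  rw [← mul_assoc, mul_comm g f, hfg, one_mul, coeff_mk] at h2
  exact h2.symm

theorem five_expand {f : PowerSeries ℤ} {a c : List ℤ} (p : ℕ) (hp : p ≠ 0) (hf : Five f a)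
    (hc : ((List.range 5).map fun i => if p ∣ i then a.getD (i / p) 0 else 0) = c) :
    Five (expand p hp f) c := by
  intro i hi
  subst hc
  rw [coeff_expand, getD_five _ hi]
  split_ifs
  · rw [hf _ (lt_of_le_of_lt (Nat.div_le_self i p) hi)]
  · rfl

theorem five_etaProd : Five etaProd [1, -1, -1, 0, 0] := by
  classical
  intro k hk
  have h1 : HasProd (fun n : ℕ => (1 : PowerSeries ℤ) - X ^ (n + 1)) etaProd :=
    (PowerSeries.WithPiTopology.multipliable_one_sub_X_pow ℤ).hasProd
  have h2 := ((PowerSeries.WithPiTopology.continuous_coeff ℤ k).tendsto _).comp h1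
  have h3 : ∀ s : Finset ℕ, Disjoint s (Finset.range 5) →
      Five (∏ n ∈ s, ((1 : PowerSeries ℤ) - X ^ (n + 1))) [1, 0, 0, 0, 0] := by
    intro s
    induction s using Finset.induction with
    | empty => intro _; simpa using five_one
    | @insert a s ha ih =>
      intro hd
      rw [Finset.disjoint_insert_left] at hd
      rw [Finset.prod_insert ha]
      refine Five.mul (a := [1, 0, 0, 0, 0]) ?_ (ih hd.2) (by decide)
      intro i hi
      have : 5 ≤ a := by simpa using hd.1
      rw [map_sub, coeff_X_pow, if_neg (by omega), sub_zero]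
      exact five_one i hi
  have hfac : ∀ n : ℕ, ∀ c : List ℤ,
      ((List.range 5).map fun i => (if i = 0 then (1 : ℤ) else 0) - if i = n + 1 then 1 else 0) = c →
      Five ((1 : PowerSeries ℤ) - X ^ (n + 1)) c := by
    intro n c hc i hi
    subst hc
    rw [map_sub, coeff_X_pow, coeff_one, getD_five _ hi]
  have h4 : Five (∏ n ∈ Finset.range 5, ((1 : PowerSeries ℤ) - X ^ (n + 1))) [1, -1, -1, 0, 0] := by
    simp only [Finset.prod_range_succ, Finset.prod_range_zero, one_mul]
    exact ((((hfac 0 [1, -1, 0, 0, 0] (by decide)).mul (hfac 1 [1, 0, -1, 0, 0] (by decide))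
      (c := [1, -1, -1, 1, 0]) (by decide)).mul (hfac 2 [1, 0, 0, -1, 0] (by decide))
      (c := [1, -1, -1, 0, 1]) (by decide)).mul (hfac 3 [1, 0, 0, 0, -1] (by decide))
      (c := [1, -1, -1, 0, 0]) (by decide)).mul (hfac 4 [1, 0, 0, 0, 0] (by decide)) (by decide)
  refine tendsto_nhds_unique h2 (tendsto_const_nhds.congr' ?_)
  filter_upwards [Filter.eventually_ge_atTop (Finset.range 5)] with s hs
  rw [Function.comp_apply, ← Finset.prod_sdiff hs]
  exact ((h3 _ Finset.sdiff_disjoint).mul h4 (c := [1, -1, -1, 0, 0]) (by decide) k hk).symm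

theorem five_pow12 : Five (etaProd ^ 12) [1, -12, 54, -88, -99] := by
  have h2 : Five (etaProd ^ 2) [1, -2, -1, 2, 1] := by
    rw [pow_two]; exact five_etaProd.mul five_etaProd (by decide)
  have h4 : Five (etaProd ^ 4) [1, -4, 2, 8, -5] := by
    rw [show (4 : ℕ) = 2 + 2 from rfl, pow_add]; exact h2.mul h2 (by decide)
  have h8 : Five (etaProd ^ 8) [1, -8, 20, 0, -70] := by
    rw [show (8 : ℕ) = 4 + 4 from rfl, pow_add]; exact h4.mul h4 (by decide)
  rw [show (12 : ℕ) = 8 + 4 from rfl, pow_add]; exact h8.mul h4 (by decide)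

theorem five_etaUnit : Five dedekindEtaUnit [1, -24, 252, -1472, 4830] := by
  rw [dedekindEtaUnit, show (24 : ℕ) = 12 + 12 from rfl, pow_add]
  exact five_pow12.mul five_pow12 (by decide)

theorem five_etaUnitInv : Five dedekindEtaUnitInv [1, 24, 324, 3200, 25650] :=
  five_inv dedekindEtaUnit_mul_inv five_etaUnit (by decide)

theorem five_eisenstein4 : Five eisenstein4 [1, 240, 2160, 6720, 17520] := by
  intro i hi
  rw [eisenstein4, coeff_mk]
  interval_cases i <;> decide

theorem five_jNum : Five jNum [1, 744, 196884, 21493760, 864299970] := by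
  rw [jNum, pow_succ, pow_two]
  exact ((five_eisenstein4.mul five_eisenstein4 (c := [1, 480, 61920, 1050240, 7926240])
    (by decide)).mul five_eisenstein4 (c := [1, 720, 179280, 16954560, 396974160])
    (by decide)).mul five_etaUnitInv (by decide)

/-- The series of `η(z)²⁴ / η(2z)²⁴`, shifted to order `0`. -/
def haupt2 : PowerSeries ℤ := dedekindEtaUnit * expand 2 two_ne_zero dedekindEtaUnitInv

/-- The series of `η(z)¹² / η(3z)¹²`, shifted to order `0`. -/
def haupt3 : PowerSeries ℤ :=
  etaProd ^ 12 * (expand 3 three_ne_zero (etaProd ^ 12) * expand 3 three_ne_zero dedekindEtaUnitInv)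

theorem five_haupt2 : Five haupt2 [1, -24, 276, -2048, 11202] :=
  five_etaUnit.mul (five_expand 2 _ five_etaUnitInv rfl) (by decide)

theorem five_haupt3 : Five haupt3 [1, -12, 54, -76, -243] :=
  five_pow12.mul ((five_expand 3 _ five_pow12 rfl).mul (five_expand 3 _ five_etaUnitInv rfl) rfl)
    (by decide)

theorem coeff_identity_two :
    ∀ i < 5, coeff i (jNum * haupt2 ^ 2 - (haupt2 + C 256 * X) ^ 3) = 0 := by
  intro i hi
  rw [map_sub, sub_eq_zero]
  have h2 := five_haupt2.add (five_mul_X 256) rfl
  rw [pow_two, pow_succ (_ + _), pow_two]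
  rw [(five_jNum.mul (five_haupt2.mul five_haupt2 rfl) rfl) i hi, ((h2.mul h2 rfl).mul h2 rfl) i hi]
  interval_cases i <;> decide

theorem coeff_identity_three :
    ∀ i < 5, coeff i (jNum * haupt3 ^ 3 -
      (haupt3 + C 27 * X) * (haupt3 + C 243 * X) ^ 3) = 0 := by
  intro i hi
  rw [map_sub, sub_eq_zero]
  have h1 := five_haupt3.add (five_mul_X 27) rfl
  have h2 := five_haupt3.add (five_mul_X 243) rfl
  rw [pow_succ haupt3, pow_two, pow_succ (_ + _), pow_two]
  rw [(five_jNum.mul ((five_haupt3.mul five_haupt3 rfl).mul five_haupt3 rfl) rfl) i hi,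
    (h1.mul ((h2.mul h2 rfl).mul h2 rfl) rfl) i hi]
  interval_cases i <;> decide

end FA.CurveRed.Haupt
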